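import Fermat.Agent.S52.NOS.Short
import Fermat.Agent.S52.SPEC.PtMap

/-!
# S52 / [YY]: the addition-formula cell (prefix `s52y_`)

`W : y² = x³ + a x + b` over a field `Ω` of characteristic `≠ 2`, `F ⊆ Ω` a subfield containing
`a`, `b` and the `x`-coordinates of all nonzero points of `W(Ω)[n]`.  Then for any two nonzero
points `P = (x₁, y₁)`, `Q = (x₂, y₂)` of `W(Ω)[n]` the product `y₁ y₂` lies in `F`
(`s52y_main`): if `x₁ ≠ x₂` then `x(P + Q) = λ² - x₁ - x₂` with `λ = (y₁ - y₂)/(x₁ - x₂)`, so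
`λ² (x₁ - x₂)² = y₁² - 2 y₁ y₂ + y₂²` and `yᵢ² = xᵢ³ + a xᵢ + b ∈ F`; if `x₁ = x₂` then
`y₂ = ± y₁`.  Consequently `y₂ ∈ F · y₁` (`s52y_ratio`), and a field endomorphism `γ` of `Ω`
fixing `a` and `b` has `γ y₁ ∈ F · y₁` (`s52y_galois`).
-/

set_option autoImplicit false

namespace Fermat.Agent.S52

open WeierstrassCurve WeierstrassCurve.Affine

section YY

variable {Ω : Type*} [Field Ω] [DecidableEq Ω]

omit [DecidableEq Ω] in
/-- The square of the `y`-coordinate of a point of the short curve is the cubic in `x`. -/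
theorem s52y_sq (a b : Ω) {x y : Ω} (h : (s52n_short a b).toAffine.Nonsingular x y) :
    y ^ 2 = x ^ 3 + a * x + b := by
  have := (Affine.equation_iff _ _).1 h.1
  simp only [s52n_short_a₁, s52n_short_a₂, s52n_short_a₃, s52n_short_a₄, s52n_short_a₆] at this
  linear_combination this

omit [DecidableEq Ω] in
theorem s52y_sq_mem (F : Subfield Ω) {a b : Ω} (ha : a ∈ F) (hb : b ∈ F) {x y : Ω}
    (h : (s52n_short a b).toAffine.Nonsingular x y) (hx : x ∈ F) : y ^ 2 ∈ F := by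
  rw [s52y_sq a b h]
  exact F.add_mem (F.add_mem (F.pow_mem hx 3) (F.mul_mem ha hx)) hb

/-- **[YY]**: the product of the `y`-coordinates of two `n`-torsion points lies in any subfield
containing the coefficients and all `x`-coordinates of `n`-torsion points. -/
theorem s52y_main (h2 : (2 : Ω) ≠ 0) (F : Subfield Ω) {a b : Ω} (ha : a ∈ F) (hb : b ∈ F) (n : ℕ)
    (hx : ∀ (x y : Ω) (h : (s52n_short a b).toAffine.Nonsingular x y),
      n • (Point.some x y h : (s52n_short a b).toAffine.Point) = 0 → x ∈ F)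
    {x₁ y₁ : Ω} (h₁ : (s52n_short a b).toAffine.Nonsingular x₁ y₁)
    (hP : n • (Point.some x₁ y₁ h₁ : (s52n_short a b).toAffine.Point) = 0)
    {x₂ y₂ : Ω} (h₂ : (s52n_short a b).toAffine.Nonsingular x₂ y₂)
    (hQ : n • (Point.some x₂ y₂ h₂ : (s52n_short a b).toAffine.Point) = 0) :
    y₁ * y₂ ∈ F := by
  have hx₁ : x₁ ∈ F := hx x₁ y₁ h₁ hP
  have hx₂ : x₂ ∈ F := hx x₂ y₂ h₂ hQ
  have hy₁ : y₁ ^ 2 ∈ F := s52y_sq_mem F ha hb h₁ hx₁
  have hy₂ : y₂ ^ 2 ∈ F := s52y_sq_mem F ha hb h₂ hx₂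
  by_cases hxx : x₁ = x₂
  · -- `y₂ = ± y₁`
    rcases Affine.Y_eq_of_X_eq h₁.1 h₂.1 hxx with h | h
    · rw [h, ← pow_two]; exact hy₂
    · rw [s52n_short_negY] at h
      rw [h, neg_mul, ← pow_two]; exact F.neg_mem hy₂
  · -- the addition formula
    have hadd := Point.add_of_X_ne (h₁ := h₁) (h₂ := h₂) hxx
    have hsum : n • (Point.some x₁ y₁ h₁ + Point.some x₂ y₂ h₂ :
        (s52n_short a b).toAffine.Point) = 0 := by
      rw [smul_add, hP, hQ, add_zero]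
    rw [hadd] at hsum
    have hx₃ := hx _ _ _ hsum
    rw [Affine.slope_of_X_ne hxx] at hx₃
    simp only [Affine.addX, s52n_short_a₁, s52n_short_a₂, zero_mul, add_zero, sub_zero] at hx₃
    -- `λ² ∈ F`
    have hl : ((y₁ - y₂) / (x₁ - x₂)) ^ 2 ∈ F := by
      have : ((y₁ - y₂) / (x₁ - x₂)) ^ 2
          = (((y₁ - y₂) / (x₁ - x₂)) ^ 2 - x₁ - x₂) + x₁ + x₂ := by ring
      rw [this]
      exact F.add_mem (F.add_mem hx₃ hx₁) hx₂
    have hne : x₁ - x₂ ≠ 0 := sub_ne_zero.2 hxx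
    have h2y : 2 * (y₁ * y₂) ∈ F := by
      have : 2 * (y₁ * y₂)
          = y₁ ^ 2 + y₂ ^ 2 - ((y₁ - y₂) / (x₁ - x₂)) ^ 2 * (x₁ - x₂) ^ 2 := by
        field_simp
        ring
      rw [this]
      exact F.sub_mem (F.add_mem hy₁ hy₂) (F.mul_mem hl (F.pow_mem (F.sub_mem hx₁ hx₂) 2))
    have h2F : (2 : Ω) ∈ F := by
      have : (2 : Ω) = 1 + 1 := by norm_num
      rw [this]; exact F.add_mem F.one_mem F.one_mem
    have : y₁ * y₂ = (2 : Ω)⁻¹ * (2 * (y₁ * y₂)) := by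
      field_simp
    rw [this]
    exact F.mul_mem (F.inv_mem h2F) h2y

/-- **[YY]**, ratio form: `y(Q) ∈ F · y(P)`. -/
theorem s52y_ratio (h2 : (2 : Ω) ≠ 0) (F : Subfield Ω) {a b : Ω} (ha : a ∈ F) (hb : b ∈ F) (n : ℕ)
    (hx : ∀ (x y : Ω) (h : (s52n_short a b).toAffine.Nonsingular x y),
      n • (Point.some x y h : (s52n_short a b).toAffine.Point) = 0 → x ∈ F)
    {x₁ y₁ : Ω} (h₁ : (s52n_short a b).toAffine.Nonsingular x₁ y₁)
    (hP : n • (Point.some x₁ y₁ h₁ : (s52n_short a b).toAffine.Point) = 0)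
    (hy₁ : y₁ ≠ 0)
    {x₂ y₂ : Ω} (h₂ : (s52n_short a b).toAffine.Nonsingular x₂ y₂)
    (hQ : n • (Point.some x₂ y₂ h₂ : (s52n_short a b).toAffine.Point) = 0) :
    ∃ r ∈ F, y₂ = r * y₁ := by
  refine ⟨(y₁ * y₂) * (y₁ ^ 2)⁻¹, F.mul_mem (s52y_main h2 F ha hb n hx h₁ hP h₂ hQ)
    (F.inv_mem (s52y_sq_mem F ha hb h₁ (hx x₁ y₁ h₁ hP))), ?_⟩
  field_simp

/-- A field endomorphism fixing `a` and `b` maps `n`-torsion points of `y² = x³ + a x + b` to
`n`-torsion points. -/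
theorem s52y_conj (γ : Ω →+* Ω) {a b : Ω} (hγa : γ a = a) (hγb : γ b = b) (n : ℕ)
    {x y : Ω} (h : (s52n_short a b).toAffine.Nonsingular x y)
    (hP : n • (Point.some x y h : (s52n_short a b).toAffine.Point) = 0) :
    ∃ h' : (s52n_short a b).toAffine.Nonsingular (γ x) (γ y),
      n • (Point.some (γ x) (γ y) h' : (s52n_short a b).toAffine.Point) = 0 := by
  have hW : (s52n_short a b).toAffine.map γ = (s52n_short a b).toAffine := by
    have := s52n_short_map a b γ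
    rw [hγa, hγb] at this
    exact this
  refine ⟨s52p_nonsingular_of_map γ hW h, ?_⟩
  rw [← s52p_ptMapTo_some γ hW h, ← map_nsmul, hP, map_zero]

/-- **[YY]**, Galois form (the hypothesis of [TWIST]): a field endomorphism `γ` of `Ω` fixing the
coefficients of the curve multiplies the `y`-coordinate of an `n`-torsion point by an element of
`F`. -/
theorem s52y_galois (h2 : (2 : Ω) ≠ 0) (F : Subfield Ω) {a b : Ω} (ha : a ∈ F) (hb : b ∈ F)
    (n : ℕ)
    (hx : ∀ (x y : Ω) (h : (s52n_short a b).toAffine.Nonsingular x y),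
      n • (Point.some x y h : (s52n_short a b).toAffine.Point) = 0 → x ∈ F)
    (γ : Ω →+* Ω) (hγa : γ a = a) (hγb : γ b = b)
    {x₁ y₁ : Ω} (h₁ : (s52n_short a b).toAffine.Nonsingular x₁ y₁)
    (hP : n • (Point.some x₁ y₁ h₁ : (s52n_short a b).toAffine.Point) = 0)
    (hy₁ : y₁ ≠ 0) : ∃ r ∈ F, γ y₁ = r * y₁ := by
  obtain ⟨h', hQ⟩ := s52y_conj γ hγa hγb n h₁ hP
  exact s52y_ratio h2 F ha hb n hx h₁ hP hy₁ h' hQ

/-- **[YY]**, Galois form, spelled with an intermediate field and a ring automorphism (the shape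
of the hypothesis of `s52l_Twist_stmt`). -/
theorem s52y_galois_if {k : Type*} [Field k] [Algebra k Ω] (h2 : (2 : Ω) ≠ 0)
    (Fb : IntermediateField k Ω) {a b : Ω} (ha : a ∈ Fb) (hb : b ∈ Fb) (n : ℕ)
    (hx : ∀ (x y : Ω) (h : (s52n_short a b).toAffine.Nonsingular x y),
      n • (Point.some x y h : (s52n_short a b).toAffine.Point) = 0 → x ∈ Fb)
    (γ : Ω ≃+* Ω) (hγa : γ a = a) (hγb : γ b = b)
    {x₁ y₁ : Ω} (h₁ : (s52n_short a b).toAffine.Nonsingular x₁ y₁)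
    (hP : n • (Point.some x₁ y₁ h₁ : (s52n_short a b).toAffine.Point) = 0)
    (hy₁ : y₁ ≠ 0) : ∃ r ∈ Fb, γ y₁ = r * y₁ :=
  s52y_galois h2 Fb.toSubfield ha hb n hx γ.toRingHom hγa hγb h₁ hP hy₁

/-- **[YY]**, ratio form with an intermediate field. -/
theorem s52y_ratio_if {k : Type*} [Field k] [Algebra k Ω] (h2 : (2 : Ω) ≠ 0)
    (Fb : IntermediateField k Ω) {a b : Ω} (ha : a ∈ Fb) (hb : b ∈ Fb) (n : ℕ)
    (hx : ∀ (x y : Ω) (h : (s52n_short a b).toAffine.Nonsingular x y),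
      n • (Point.some x y h : (s52n_short a b).toAffine.Point) = 0 → x ∈ Fb)
    {x₁ y₁ : Ω} (h₁ : (s52n_short a b).toAffine.Nonsingular x₁ y₁)
    (hP : n • (Point.some x₁ y₁ h₁ : (s52n_short a b).toAffine.Point) = 0)
    (hy₁ : y₁ ≠ 0)
    {x₂ y₂ : Ω} (h₂ : (s52n_short a b).toAffine.Nonsingular x₂ y₂)
    (hQ : n • (Point.some x₂ y₂ h₂ : (s52n_short a b).toAffine.Point) = 0) :
    ∃ r ∈ Fb, y₂ = r * y₁ :=
  s52y_ratio h2 Fb.toSubfield ha hb n hx h₁ hP hy₁ h₂ hQ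

end YY

end Fermat.Agent.S52
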